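import Mathlib
import Fermat.Agent.S41.H761.CosetSystem2
import Fermat.Agent.S41.H863.TransferNatural

/-!
# S59 / cell TW (shared with HARD, leaf (ST)): the relation (UU) for coset systems — abstract part
(helper666)

Ambient group `𝒢`; a "small" group `Γs` and a "big" group `Γb` with embeddings
`ιs : Γs →* 𝒢`, `ιb : Γb →* 𝒢` and a homomorphism `f : Γs →* Γb` with `ιb ∘ f = ιs`.

* `u : J → 𝒢` a coset system from `Γs` to `Γs` (the operator `U`);
* `τ : Option J → 𝒢` a coset system from `Γs` to `Γb` (the operator `t₂`), with `τ (some j) = u j`;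
  `w := τ none` (the Atkin–Lehner element).

Then `w` normalises `Γs` (`cw`, `cw_spec`: `w * ιs γ = ιs (cw γ) * w`) and
`res ∘ t₂ = W + U` (`res_transferT`), `W ψ = ψ ∘ cw`.

If moreover `τ x = w * ιb (κ x)` with `κ x ∈ Γb` and `w * w = z * s` with `z` central and `s`
normalising `Γs` (`s * ιs γ = ιs (σ γ) * s`), then

* `cw_cw` : `cw ∘ cw = σ`;
* `transferAlong_eq_T` : `t₁ = t₂ ∘ W⁻¹`, where `t₁ = transferAlong f` (Mathlib's transfer);
* `UU` : `U (U ψ) = ψ ∘ σ + U (res (t₂ ψ)) - res (t₁ (ψ ∘ σ))`.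
-/

set_option autoImplicit false

namespace Fermat.Agent.S59.TW.H666

open Fermat.Agent.S41.H761 Fermat.Agent.S41.Spec

section Abs

variable {𝒢 Γs Γb J : Type*} [Group 𝒢] [Group Γs] [Group Γb]

/-- The abstract situation of the relation between `U`, `t₂` and the Atkin–Lehner element. -/
structure ALSetup (ιs : Γs →* 𝒢) (ιb : Γb →* 𝒢) (f : Γs →* Γb) (u : J → 𝒢)
    (τ : Option J → 𝒢) : Prop where
  compat : ∀ g, ιb (f g) = ιs g
  injb : Function.Injective ιb
  some_eq : ∀ j, τ (some j) = u j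
  sysU : IsCosetSystem ιs ιs u
  sysT : IsCosetSystem ιs ιb τ

namespace ALSetup

variable {ιs : Γs →* 𝒢} {ιb : Γb →* 𝒢} {f : Γs →* Γb} {u : J → 𝒢} {τ : Option J → 𝒢}

section Basic

variable (S : ALSetup ιs ιb f u τ)
include S

theorem f_injective : Function.Injective f := by
  intro a b h
  apply S.sysU.inj
  rw [← S.compat, ← S.compat, h]

theorem spec_some (j : J) (γ : Γs) :
    τ (some j) * ιb (f γ) = ιs (S.sysU.coc j γ) * τ (some (S.sysU.act j γ)) := by
  rw [S.some_eq, S.some_eq, S.compat]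
  exact S.sysU.spec j γ

theorem act_some (j : J) (γ : Γs) : S.sysT.act (some j) (f γ) = some (S.sysU.act j γ) :=
  S.sysT.act_eq (S.spec_some j γ)

theorem coc_some (j : J) (γ : Γs) : S.sysT.coc (some j) (f γ) = S.sysU.coc j γ :=
  S.sysT.coc_eq (S.spec_some j γ)

theorem act_none (γ : Γs) : S.sysT.act none (f γ) = none := by
  cases h : S.sysT.act none (f γ) with
  | none => rfl
  | some j =>
    exfalso
    have h1 : S.sysT.act (S.sysT.act none (f γ)) (f γ⁻¹) = none := by
      rw [← S.sysT.act_mul, ← map_mul, mul_inv_cancel, map_one, S.sysT.act_one]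
    rw [h, S.act_some] at h1
    exact Option.some_ne_none _ h1

/-- Conjugation by `w = τ none` on `Γs`. -/
noncomputable def cw : Γs →* Γs where
  toFun γ := S.sysT.coc none (f γ)
  map_one' := by rw [map_one, S.sysT.coc_one]
  map_mul' a b := by rw [map_mul, S.sysT.coc_mul, S.act_none]

theorem cw_apply (γ : Γs) : S.cw γ = S.sysT.coc none (f γ) := rfl

theorem cw_spec (γ : Γs) : τ none * ιs γ = ιs (S.cw γ) * τ none := by
  have h := S.sysT.spec none (f γ)
  rw [S.act_none, S.compat] at h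
  exact h

theorem cw_injective : Function.Injective S.cw := by
  intro a b h
  apply S.sysU.inj
  have h1 := S.cw_spec a
  rw [h, ← S.cw_spec b] at h1
  exact mul_left_cancel h1

variable {A : Type*} [AddCommGroup A] [Fintype J]

/-- `res ∘ t₂ = W + U`. -/
theorem res_transferT_apply (ψ : Additive Γs →+ A) (γ : Γs) :
    S.sysT.transfer ψ (Additive.ofMul (f γ)) =
      ψ (Additive.ofMul (S.cw γ)) + S.sysU.transfer ψ (Additive.ofMul γ) := by
  rw [IsCosetSystem.transfer_apply, IsCosetSystem.transfer_apply, Fintype.sum_option]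
  congr 1
  exact Finset.sum_congr rfl fun j _ => by rw [S.coc_some]

/-- `res ∘ t₂ = W + U`. -/
theorem res_transferT (ψ : Additive Γs →+ A) :
    (S.sysT.transfer ψ).comp (MonoidHom.toAdditive f) =
      ψ.comp (MonoidHom.toAdditive S.cw) + S.sysU.transfer ψ := by
  refine AddMonoidHom.ext fun g' => ?_
  obtain ⟨γ, rfl⟩ : ∃ g : Γs, Additive.ofMul g = g' := ⟨Additive.toMul g', rfl⟩
  exact S.res_transferT_apply ψ γ

end Basic

/-- The additional data: representatives of `Γs \ Γb` and the square of `w`. -/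
structure Square (S : ALSetup ιs ιb f u τ) (κ : Option J → Γb) (σ : Γs ≃* Γs) (z s : 𝒢) :
    Prop where
  rep : ∀ x, τ x = τ none * ιb (κ x)
  central : ∀ γ, z * ιs γ = ιs γ * z
  norm : ∀ γ, s * ιs γ = ιs (σ γ) * s
  sq : τ none * τ none = z * s

namespace Square

variable {S : ALSetup ιs ιb f u τ} {κ : Option J → Γb} {σ : Γs ≃* Γs} {z s : 𝒢}

section

variable (Q : S.Square κ σ z s)
include Q

/-- `c_w ∘ c_w = σ`. -/
theorem cw_cw (γ : Γs) : S.cw (S.cw γ) = σ γ := by
  apply S.sysU.inj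
  have h1 : τ none * τ none * ιs γ = ιs (S.cw (S.cw γ)) * (τ none * τ none) := by
    rw [mul_assoc (τ none), S.cw_spec, ← mul_assoc, S.cw_spec, mul_assoc]
  have h2 : τ none * τ none * ιs γ = ιs (σ γ) * (τ none * τ none) := by
    rw [Q.sq, mul_assoc, Q.norm, ← mul_assoc, Q.central, mul_assoc]
  exact mul_right_cancel (h1.symm.trans h2)

theorem cw_bijective : Function.Bijective S.cw := by
  refine ⟨S.cw_injective, fun c => ⟨S.cw (σ.symm c), ?_⟩⟩
  rw [Q.cw_cw, MulEquiv.apply_symm_apply]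

/-- Conjugation by `w` as an automorphism of `Γs`. -/
noncomputable def cwE : Γs ≃* Γs := MulEquiv.ofBijective S.cw Q.cw_bijective

theorem cwE_apply (γ : Γs) : Q.cwE γ = S.cw γ := rfl

theorem cw_cwE_symm (c : Γs) : S.cw (Q.cwE.symm c) = c :=
  Q.cwE.apply_symm_apply c

theorem cwE_symm_cw (c : Γs) : Q.cwE.symm (S.cw c) = c :=
  Q.cwE.symm_apply_apply c

theorem cwE_symm_sigma (γ : Γs) : Q.cwE.symm (σ γ) = S.cw γ := by
  rw [← Q.cw_cw, Q.cwE_symm_cw]

theorem conj_inv (c : Γs) : ιs c * τ none = τ none * ιs (Q.cwE.symm c) := by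
  rw [S.cw_spec, Q.cw_cwE_symm]

/-- The cocycle of the representatives `κ x ∈ Γb` of `Γs \ Γb`. -/
theorem kappa_spec (x : Option J) (g : Γb) :
    κ x * g = f (Q.cwE.symm (S.sysT.coc x g)) * κ (S.sysT.act x g) := by
  apply S.injb
  apply mul_left_cancel (a := τ none)
  rw [map_mul, ← mul_assoc, ← Q.rep, S.sysT.spec x g, map_mul, S.compat, ← mul_assoc,
    ← Q.conj_inv, mul_assoc, ← Q.rep]

theorem kappa_inj (x y : Option J) (h : κ x * (κ y)⁻¹ ∈ f.range) : x = y := by
  obtain ⟨c, hc⟩ := h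
  have h1 : κ x = f c * κ y := by rw [hc, inv_mul_cancel_right]
  apply S.sysT.eq_of_mul x y (S.cw c)
  rw [Q.rep x, h1, map_mul, S.compat, ← mul_assoc, S.cw_spec, mul_assoc, ← Q.rep]

theorem kappa_surj (g : Γb) : ∃ x : Option J, g * (κ x)⁻¹ ∈ f.range := by
  refine ⟨S.sysT.act none ((κ none)⁻¹ * g),
    Q.cwE.symm (S.sysT.coc none ((κ none)⁻¹ * g)), ?_⟩
  have h := Q.kappa_spec none ((κ none)⁻¹ * g)
  rw [mul_inv_cancel_left] at h
  exact eq_mul_inv_of_mul_eq h.symm

variable {A : Type*} [AddCommGroup A] [Fintype J]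

/-- `t₁ = t₂ ∘ W⁻¹`: Mathlib's transfer along `f` is the transfer of the system `τ` composed
with the conjugation by `w⁻¹`. -/
theorem transferAlong_eq_T (ψ : Additive Γs →+ A) :
    transferAlong f ψ =
      S.sysT.transfer (ψ.comp (MonoidHom.toAdditive Q.cwE.symm.toMonoidHom)) := by
  refine AddMonoidHom.ext fun g' => ?_
  obtain ⟨g, rfl⟩ : ∃ g : Γb, Additive.ofMul g = g' := ⟨Additive.toMul g', rfl⟩
  rw [Fermat.Agent.S41.H863.transferAlong_eq_sum_reps f S.f_injective κ Q.kappa_inj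
    Q.kappa_surj ψ g (fun x => S.sysT.act x g) (fun x => Q.cwE.symm (S.sysT.coc x g))
    (fun x => Q.kappa_spec x g), IsCosetSystem.transfer_apply]
  rfl

/-- `res ∘ t₁ = 1 + U ∘ W⁻¹`. -/
theorem res_transferAlong (φ : Additive Γs →+ A) :
    (transferAlong f φ).comp (MonoidHom.toAdditive f) =
      φ + S.sysU.transfer (φ.comp (MonoidHom.toAdditive Q.cwE.symm.toMonoidHom)) := by
  rw [Q.transferAlong_eq_T, S.res_transferT]
  congr 1
  refine AddMonoidHom.ext fun g' => ?_
  obtain ⟨γ, rfl⟩ : ∃ g : Γs, Additive.ofMul g = g' := ⟨Additive.toMul g', rfl⟩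
  show φ (Additive.ofMul (Q.cwE.symm (S.cw γ))) = φ (Additive.ofMul γ)
  rw [Q.cwE_symm_cw]

/-- `U ∘ W = res ∘ t₁ ∘ ⟨σ⟩ - ⟨σ⟩`. -/
theorem transferU_W (ψ : Additive Γs →+ A) :
    S.sysU.transfer (ψ.comp (MonoidHom.toAdditive S.cw)) =
      (transferAlong f (ψ.comp (MonoidHom.toAdditive σ.toMonoidHom))).comp
        (MonoidHom.toAdditive f) - ψ.comp (MonoidHom.toAdditive σ.toMonoidHom) := by
  rw [Q.res_transferAlong, add_sub_cancel_left]
  congr 1
  refine AddMonoidHom.ext fun g' => ?_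
  obtain ⟨γ, rfl⟩ : ∃ g : Γs, Additive.ofMul g = g' := ⟨Additive.toMul g', rfl⟩
  show ψ (Additive.ofMul (S.cw γ)) = ψ (Additive.ofMul (σ (Q.cwE.symm γ)))
  rw [← Q.cw_cw, Q.cw_cwE_symm]

/-- **The relation (UU)**: `U² = ⟨σ⟩ + U ∘ res ∘ t₂ - res ∘ t₁ ∘ ⟨σ⟩`. -/
theorem UU (ψ : Additive Γs →+ A) :
    S.sysU.transfer (S.sysU.transfer ψ) =
      ψ.comp (MonoidHom.toAdditive σ.toMonoidHom) +
        S.sysU.transfer ((S.sysT.transfer ψ).comp (MonoidHom.toAdditive f)) -
        (transferAlong f (ψ.comp (MonoidHom.toAdditive σ.toMonoidHom))).comp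
          (MonoidHom.toAdditive f) := by
  rw [S.res_transferT, IsCosetSystem.transfer_add, Q.transferU_W]
  abel

/-- On classes killed by `t₁ ∘ ⟨σ⟩` and `t₂`: `U² = ⟨σ⟩`. -/
theorem UU_of_new (ψ : Additive Γs →+ A) (h₂ : S.sysT.transfer ψ = 0)
    (h₁ : transferAlong f (ψ.comp (MonoidHom.toAdditive σ.toMonoidHom)) = 0) :
    S.sysU.transfer (S.sysU.transfer ψ) = ψ.comp (MonoidHom.toAdditive σ.toMonoidHom) := by
  have h0 : S.sysU.transfer (0 : Additive Γs →+ A) = 0 := by
    have h := S.sysU.transfer_add (0 : Additive Γs →+ A) 0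
    rw [add_zero] at h
    exact left_eq_add.mp h
  rw [Q.UU, h₂, h₁]
  simp only [AddMonoidHom.zero_comp, h0, add_zero, sub_zero]

end

end Square

end ALSetup

end Abs

/-! ## Restriction of the source group of a coset system -/

section Restrict

variable {𝒢 Γ Γ' Γ₀ : Type*} [Group 𝒢] [Group Γ] [Group Γ'] [Group Γ₀] {I : Type*}
variable {ι : Γ →* 𝒢} {ι' : Γ' →* 𝒢} {ρ : I → 𝒢}

/-- A coset system from `Γ` to `Γ'` all of whose cocycles lie in the image of an injective
`j : Γ₀ →* Γ` is a coset system from `Γ₀` to `Γ'`. -/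
theorem restrictSource (h : IsCosetSystem ι ι' ρ) (j : Γ₀ →* Γ) (hj : Function.Injective j)
    (hmem : ∀ (i : I) (g' : Γ'), h.coc i g' ∈ j.range) : IsCosetSystem (ι.comp j) ι' ρ where
  inj := h.inj.comp hj
  exists_mul := by
    intro i g'
    obtain ⟨c, hc⟩ := hmem i g'
    refine ⟨h.act i g', c, ?_⟩
    rw [MonoidHom.comp_apply, hc]
    exact h.spec i g'
  eq_of_mul := fun i i' g e => h.eq_of_mul i i' (j g) e

theorem restrictSource_coc (h : IsCosetSystem ι ι' ρ) (j : Γ₀ →* Γ)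
    (hj : Function.Injective j) (hmem : ∀ (i : I) (g' : Γ'), h.coc i g' ∈ j.range) (i : I)
    (g' : Γ') : j ((restrictSource h j hj hmem).coc i g') = h.coc i g' := by
  have e := (restrictSource h j hj hmem).spec i g'
  rw [MonoidHom.comp_apply] at e
  exact (h.coc_eq e).symm

theorem restrictSource_act (h : IsCosetSystem ι ι' ρ) (j : Γ₀ →* Γ)
    (hj : Function.Injective j) (hmem : ∀ (i : I) (g' : Γ'), h.coc i g' ∈ j.range) (i : I)
    (g' : Γ') : (restrictSource h j hj hmem).act i g' = h.act i g' := by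
  have e := (restrictSource h j hj hmem).spec i g'
  rw [MonoidHom.comp_apply] at e
  exact (h.act_eq e).symm

end Restrict

end Fermat.Agent.S59.TW.H666
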