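import Mathlib
import Fermat.Agent.S59.TW.H653.Systems
import Fermat.Agent.S59.TW.H653.Diamond
import Fermat.Agent.S59.TW.H666.UUKAbs

/-!
# S59 / cell TW (shared with HARD, leaf (ST)): the coset systems at `Γ_H`-levels (helper666)

`M` a level, `q ∤ M` a prime, `Γ₁(M) ≤ K ≤ Γ₀(M)` (`IsMid M K`) and `K' = K ∩ Γ₀(M q)`
(hypotheses `hle : K' ≤ K`, `hmem : ∀ g ∈ K, g ∈ Γ₀(M q) → g ∈ K'`).

* `IsLowRep q X` : `X = [[a, b], [q c, q d]]` integral with `a d - b c = 1`;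
* `lowRep_coc` : if `X * g = g' * Y` with `X, Y` of this shape, then `q ∣ g'₁₀`;
* `repsT_systemK` : the representatives `repsT M q` of `T_q` at level `K` (normalised:
  `[[1, j], [0, q]]` and `w = σ_q [[q, 0], [0, 1]]`) form a coset system from `K'` to `K`
  (its transfer is the second degeneracy transfer `t₂ : Hom(K', A) → Hom(K, A)`);
* `alSetup` : the abstract situation `ALSetup` of `UUKAbs.lean`.
-/

set_option autoImplicit false

namespace Fermat.Agent.S59.TW.H666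

open CongruenceSubgroup Matrix.SpecialLinearGroup ModularCurve.Period ModularForm
open Fermat.Agent.S29.H642 Fermat.Agent.S41.H761 Fermat.Agent.S41.Spec
open Fermat.Agent.S59.TW.H653
open P2MW.S_ModularForm_heckeT_slash_eq_self_of_mem_Gamma0.ModularForm.HeckeSlashInvariance
open scoped MatrixGroups

/-! ## Representatives with lower row divisible by `q` -/

/-- `X ∈ GL(2, ℝ)` is an integral matrix `[[a, b], [q c, q d]]` with `a d - b c = 1`. -/
def IsLowRep (q : ℕ) (X : GL (Fin 2) ℝ) : Prop :=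
  ∃ a b c d : ℤ, a * d - b * c = 1 ∧
    (X : Matrix (Fin 2) (Fin 2) ℝ) = !![(a : ℝ), (b : ℝ); (q : ℝ) * c, (q : ℝ) * d]

/-- If `X * g = g' * Y` with `X`, `Y` of the shape `[[a, b], [q c, q d]]`, then `q ∣ g'₁₀`. -/
theorem lowRep_coc {q : ℕ} {X Y : GL (Fin 2) ℝ} (hX : IsLowRep q X) (hY : IsLowRep q Y)
    {g g' : SL(2, ℤ)} (e : X * mapGL ℝ g = mapGL ℝ g' * Y) : (q : ℤ) ∣ g' 1 0 := by
  obtain ⟨a, b, c, d, -, hXe⟩ := hX
  obtain ⟨a', b', c', d', hdet', hYe⟩ := hY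
  have e10 := congrArg (fun Z : GL (Fin 2) ℝ => (Z : Matrix (Fin 2) (Fin 2) ℝ) 1 0) e
  have e11 := congrArg (fun Z : GL (Fin 2) ℝ => (Z : Matrix (Fin 2) (Fin 2) ℝ) 1 1) e
  simp only [coe_mul_apply, coe_mapGL_apply, hXe, hYe, Matrix.of_apply, Matrix.cons_val',
    Matrix.cons_val_zero, Matrix.cons_val_one, Matrix.cons_val_fin_one] at e10 e11
  have i10 : (q : ℤ) * c * g 0 0 + q * d * g 1 0 = g' 1 0 * a' + g' 1 1 * (q * c') := by
    exact_mod_cast e10
  have i11 : (q : ℤ) * c * g 0 1 + q * d * g 1 1 = g' 1 0 * b' + g' 1 1 * (q * d') := by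
    exact_mod_cast e11
  refine ⟨d' * (c * g 0 0 + d * g 1 0 - g' 1 1 * c') -
    c' * (c * g 0 1 + d * g 1 1 - g' 1 1 * d'), ?_⟩
  linear_combination (-(g' 1 0)) * hdet' - d' * i10 + c' * i11

variable {M q : ℕ} [Fact q.Prime]

theorem bezout_sigma (hqM : ¬ q ∣ M) :
    Int.gcdA q M * (q : ℤ) + Int.gcdB q M * (M : ℤ) = 1 :=
  (sigma_spec ((Nat.Prime.coprime_iff_not_dvd Fact.out).mpr hqM)).2.2.2.2

/-- The entries of `w = repsT M q ∞ = σ_q [[q, 0], [0, 1]]`. -/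
theorem coe_repsT_infty (hqM : ¬ q ∣ M) :
    ((repsT M q OnePoint.infty : GL (Fin 2) ℝ) : Matrix (Fin 2) (Fin 2) ℝ) =
      !![((Int.gcdA q M * q : ℤ) : ℝ), ((-Int.gcdB q M : ℤ) : ℝ);
        (q : ℝ) * ((M : ℤ) : ℝ), (q : ℝ) * ((1 : ℤ) : ℝ)] := by
  have hp : q ≠ 0 := (Fact.out : q.Prime).ne_zero
  have hcop : Nat.Coprime q M := (Nat.Prime.coprime_iff_not_dvd Fact.out).mpr hqM
  obtain ⟨s00, s01, s10, s11, -⟩ := sigma_spec hcop
  rw [repsT_infty]
  ext i j
  fin_cases i <;> fin_cases j <;>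
    simp only [coe_mul_apply, coe_ιN_apply, val_heckeDiagMatrix hp, Matrix.of_apply,
      Matrix.cons_val', Matrix.cons_val_zero, Matrix.cons_val_one, Matrix.cons_val_fin_one,
      Fin.zero_eta, Fin.mk_one, s00, s01, s10, s11] <;>
    push_cast <;> ring

theorem coe_repsT_coe (j : ZMod q) :
    ((repsT M q (j : OnePoint (ZMod q)) : GL (Fin 2) ℝ) : Matrix (Fin 2) (Fin 2) ℝ) =
      !![(1 : ℝ), (j.val : ℝ); 0, (q : ℝ)] := by
  rw [repsT_coe, val_heckeMatrix (Fact.out : q.Prime).ne_zero]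

theorem isLowRep_repsT (hqM : ¬ q ∣ M) (x : OnePoint (ZMod q)) : IsLowRep q (repsT M q x) := by
  induction x using OnePoint.rec with
  | coe j =>
    refine ⟨1, j.val, 0, 1, by ring, ?_⟩
    rw [coe_repsT_coe]
    simp
  | infty =>
    refine ⟨Int.gcdA q M * q, -Int.gcdB q M, M, 1, ?_, coe_repsT_infty hqM⟩
    linear_combination bezout_sigma hqM

/-! ## The system of `t₂` from `K'` to `K` -/

section System

variable {K K' : Subgroup SL(2, ℤ)}

theorem coc_mem_range (hK : IsMid M K) (hqM : ¬ q ∣ M) (hle : K' ≤ K)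
    (hmem : ∀ g ∈ K, g ∈ Gamma0 (M * q) → g ∈ K') (x : OnePoint (ZMod q)) (k : K) :
    (repsT_system hK hqM).coc x k ∈ (Subgroup.inclusion hle).range := by
  set c := (repsT_system hK hqM).coc x k with hc
  have e := (repsT_system hK hqM).spec x k
  rw [← hc] at e
  have hq : (q : ℤ) ∣ (c : SL(2, ℤ)) 1 0 :=
    lowRep_coc (isLowRep_repsT hqM x) (isLowRep_repsT hqM _) e
  have hM : (M : ℤ) ∣ (c : SL(2, ℤ)) 1 0 := dvd_of_mem_Gamma0 (hK.le c.2)
  have hcop : IsCoprime (M : ℤ) (q : ℤ) :=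
    Nat.isCoprime_iff_coprime.mpr
      ((Nat.Prime.coprime_iff_not_dvd Fact.out).mpr hqM).symm
  have hMq : ((M * q : ℕ) : ℤ) ∣ (c : SL(2, ℤ)) 1 0 := by
    push_cast
    exact hcop.mul_dvd hM hq
  exact ⟨⟨(c : SL(2, ℤ)), hmem _ c.2 (mem_Gamma0_of_dvd hMq)⟩, Subtype.ext rfl⟩

/-- The normalised representatives of `T_q` at level `M` form a coset system from
`K' = K ∩ Γ₀(M q)` to `K`. -/
theorem repsT_systemK (hK : IsMid M K) (hqM : ¬ q ∣ M) (hle : K' ≤ K)
    (hmem : ∀ g ∈ K, g ∈ Gamma0 (M * q) → g ∈ K') :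
    IsCosetSystem (ιK K') (ιK K) (repsT M q) :=
  (restrictSource (repsT_system hK hqM) (Subgroup.inclusion hle)
    (Subgroup.inclusion_injective hle) (coc_mem_range hK hqM hle hmem)).congr
    (fun _ => rfl) (fun _ => rfl)

theorem dvd_mul_self_right (M q : ℕ) : q ∣ M * q := Dvd.intro_left M rfl

/-- The abstract situation of `UUKAbs.lean` at the levels `K' ≤ K`. -/
theorem alSetup (hK : IsMid M K) (hK' : IsMid (M * q) K') (hqM : ¬ q ∣ M) (hle : K' ≤ K)
    (hmem : ∀ g ∈ K, g ∈ Gamma0 (M * q) → g ∈ K') :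
    ALSetup (ιK K') (ιK K) (Subgroup.inclusion hle) (repsU q)
      (repsT M q : Option (ZMod q) → GL (Fin 2) ℝ) where
  compat := fun _ => rfl
  injb := ιK_injective K
  some_eq := fun _ => rfl
  sysU := repsU_system hK' (dvd_mul_self_right M q)
  sysT := repsT_systemK hK hqM hle hmem

end System

end Fermat.Agent.S59.TW.H666
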