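import Mathlib
import Fermat.Agent.S41.H924.CosetAut
import Fermat.Agent.S59.TW.H666.UUKSys

/-!
# S59 / cell TW (shared with HARD, leaf (ST)): the relation (UU) at `Γ_H`-levels (helper666)

`M` a level, `q ∤ M` a prime, `Γ₁(M) ≤ K ≤ Γ₀(M)` (`hK : IsMid M K`), `K' = K ∩ Γ₀(M q)`
(`hK' : IsMid (M * q) K'`, `hle : K' ≤ K`, `hmem : ∀ g ∈ K, g ∈ Γ₀(M q) → g ∈ K'`).
Operators (vocabulary of `S59/TW/H653`):

* `r₁ = resK hle : Hom(K, A) → Hom(K', A)`, `t₁ = coresK hle : Hom(K', A) → Hom(K, A)`;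
* `t₂ = t2K M q K K'` : the transfer of the coset system `repsT M q` from `K'` to `K`
  (the representatives of `T_q` at level `K`);
* `U = UK K' q` on `Hom(K', A)`, `⟨s⟩ = diamond hK' s` for `s ∈ Γ₀(M q)`.

Results, for every `s ∈ Γ₀(M q)` with `d(s) ≡ q mod M`:

* `UK_UK` : `U (U ψ) = ⟨s⟩ ψ + U (r₁ (t₂ ψ)) - r₁ (t₁ (⟨s⟩ ψ))`;
* `UK_UK'` : `U (U ψ) = ⟨s⟩ ψ + U (r₁ (t₂ ψ)) - r₁ (⟨s⟩ (t₁ ψ))`;
* `UK_UK_of_new` : `t₁ ψ = 0`, `t₂ ψ = 0` imply `U (U ψ) = ⟨s⟩ ψ`;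
* `resK_t2K` : `r₁ t₂ = W + U` and `coresK_eq_t2K` : `t₁ = t₂ W⁻¹`, `W ψ = ψ ∘ cwK`, where
  `cwK : K' ≃* K'` is the conjugation by the Atkin–Lehner element `w = repsT M q ∞`
  (`cwK_spec`), with `cwK ∘ cwK =` conjugation by `sAL` (`cwK_cwK`).
-/

set_option autoImplicit false

namespace Fermat.Agent.S59.TW.H666

open CongruenceSubgroup Matrix.SpecialLinearGroup ModularCurve.Period ModularForm
open Fermat.Agent.S29.H642 Fermat.Agent.S41.H761 Fermat.Agent.S41.Spec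
open Fermat.Agent.S59.TW.H653
open P2MW.S_ModularForm_heckeT_slash_eq_self_of_mem_Gamma0.ModularForm.HeckeSlashInvariance
open scoped MatrixGroups

variable {M q : ℕ} [Fact q.Prime] {K K' : Subgroup SL(2, ℤ)}

/-! ## The representatives of `K' \ K` -/

/-- `repsT M q x = w * κ_x` with `κ_x ∈ Γ₁(M) ≤ K`. -/
theorem exists_kappa (hK : IsMid M K) (hqM : ¬ q ∣ M) (x : OnePoint (ZMod q)) :
    ∃ k : K, repsT M q x = repsT M q OnePoint.infty * ιK K k := by
  induction x using OnePoint.rec with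
  | infty => exact ⟨1, by rw [map_one, mul_one]⟩
  | coe j =>
    have hs := bezout_sigma (M := M) (q := q) hqM
    have hdet : (1 : ℤ) * (Int.gcdA q M * q - M * j.val) -
        ((j.val : ℤ) + Int.gcdB q M) * (-(M : ℤ)) = 1 := by linear_combination hs
    obtain ⟨g00, g01, g10, g11⟩ := mkGamma0_apply M 1 ((j.val : ℤ) + Int.gcdB q M) (-(M : ℤ))
      (Int.gcdA q M * q - M * j.val) hdet (Dvd.intro (-1) (by ring))
    set g : Gamma0 M := mkGamma0 M 1 ((j.val : ℤ) + Int.gcdB q M) (-(M : ℤ))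
      (Int.gcdA q M * q - M * j.val) hdet (Dvd.intro (-1) (by ring)) with hg
    have hd : dUnit M g = 1 := by
      apply Units.ext
      rw [coe_dUnit, Units.val_one, g11]
      have h1 : Int.gcdA q M * (q : ℤ) - M * j.val = 1 - M * (Int.gcdB q M + j.val) := by
        linear_combination hs
      rw [h1]
      push_cast
      simp
    refine ⟨⟨(g : SL(2, ℤ)), hK.mem_of_dUnit_eq_one hd⟩, ?_⟩
    have hsR : (Int.gcdA q M : ℝ) * (q : ℝ) + (Int.gcdB q M : ℝ) * (M : ℝ) = 1 := by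
      exact_mod_cast hs
    have hw := coe_repsT_infty (M := M) (q := q) hqM
    have hu := coe_repsT_coe (M := M) j
    apply gl_ext <;>
      simp only [coe_mul_apply, ιK_apply, coe_mapGL_apply, hw, hu, Matrix.of_apply,
        Matrix.cons_val', Matrix.cons_val_zero, Matrix.cons_val_one, Matrix.cons_val_fin_one,
        g00, g01, g10, g11] <;>
      push_cast
    · linear_combination (-1 : ℝ) * hsR
    · linear_combination (-(j.val : ℝ)) * hsR
    · ring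
    · linear_combination (-(q : ℝ)) * hsR

/-! ## The square of the Atkin–Lehner element -/

/-- The scalar matrix `q`. -/
noncomputable def zScal (q : ℕ) [Fact q.Prime] : GL (Fin 2) ℝ :=
  Matrix.GeneralLinearGroup.scalar (Fin 2)
    (Units.mk0 (q : ℝ) (by exact_mod_cast (Fact.out : q.Prime).ne_zero))

theorem coe_zScal (i j : Fin 2) :
    ((zScal q : GL (Fin 2) ℝ) : Matrix (Fin 2) (Fin 2) ℝ) i j = if i = j then (q : ℝ) else 0 := by
  rw [zScal, Matrix.GeneralLinearGroup.coe_scalar, Matrix.scalar_apply, Matrix.diagonal_apply]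
  rfl

theorem sAL_det (hqM : ¬ q ∣ M) :
    (Int.gcdA q M ^ 2 * q - Int.gcdB q M * M) * (q - M * Int.gcdB q M) -
      (-Int.gcdB q M * (Int.gcdA q M + 1)) * ((M * q : ℕ) * (Int.gcdA q M + 1)) = 1 := by
  have hs := bezout_sigma (M := M) (q := q) hqM
  push_cast
  linear_combination (Int.gcdA q M * q + Int.gcdB q M * M + 1) * hs

/-- The element `s = w² / q ∈ Γ₀(M q)`, with `d(s) ≡ q mod M` (`1` if `q ∣ M`). -/
noncomputable def sAL (M q : ℕ) [Fact q.Prime] : Gamma0 (M * q) :=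
  open scoped Classical in
  if hqM : ¬ q ∣ M then
    mkGamma0 (M * q) (Int.gcdA q M ^ 2 * q - Int.gcdB q M * M)
      (-Int.gcdB q M * (Int.gcdA q M + 1)) ((M * q : ℕ) * (Int.gcdA q M + 1))
      (q - M * Int.gcdB q M) (sAL_det hqM) (Dvd.intro _ rfl)
  else 1

theorem sAL_spec (hqM : ¬ q ∣ M) :
    ((sAL M q : Gamma0 (M * q)) : SL(2, ℤ)) 0 0 = Int.gcdA q M ^ 2 * q - Int.gcdB q M * M ∧
    ((sAL M q : Gamma0 (M * q)) : SL(2, ℤ)) 0 1 = -Int.gcdB q M * (Int.gcdA q M + 1) ∧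
    ((sAL M q : Gamma0 (M * q)) : SL(2, ℤ)) 1 0 = (M * q : ℕ) * (Int.gcdA q M + 1) ∧
    ((sAL M q : Gamma0 (M * q)) : SL(2, ℤ)) 1 1 = q - M * Int.gcdB q M := by
  unfold sAL
  rw [dif_pos hqM]
  exact mkGamma0_apply _ _ _ _ _ _ _

/-- `d(sAL) ≡ q mod M`. -/
theorem sAL_d (hqM : ¬ q ∣ M) :
    ((((sAL M q : Gamma0 (M * q)) : SL(2, ℤ)) 1 1 : ℤ) : ZMod M) = (q : ZMod M) := by
  rw [(sAL_spec hqM).2.2.2]
  push_cast
  simp

/-- `w * w = q * sAL`. -/
theorem repsT_infty_sq (hqM : ¬ q ∣ M) :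
    repsT M q OnePoint.infty * repsT M q OnePoint.infty = zScal q * ιN (M * q) (sAL M q) := by
  obtain ⟨s00, s01, s10, s11⟩ := sAL_spec (M := M) (q := q) hqM
  have hw := coe_repsT_infty (M := M) (q := q) hqM
  apply gl_ext <;>
    simp only [coe_mul_apply, coe_ιN_apply, coe_zScal, hw, Matrix.of_apply,
      Matrix.cons_val', Matrix.cons_val_zero, Matrix.cons_val_one, Matrix.cons_val_fin_one,
      s00, s01, s10, s11] <;>
    push_cast <;> simp <;> ring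

/-! ## The abstract data -/

section Data

/-- The representatives `κ_x ∈ K` of `K' \ K`. -/
noncomputable def kappaK (hK : IsMid M K) (hqM : ¬ q ∣ M) (x : Option (ZMod q)) : K :=
  (exists_kappa hK hqM (x : OnePoint (ZMod q))).choose

theorem alSquare (hK : IsMid M K) (hK' : IsMid (M * q) K') (hqM : ¬ q ∣ M) (hle : K' ≤ K)
    (hmem : ∀ g ∈ K, g ∈ Gamma0 (M * q) → g ∈ K') :
    (alSetup hK hK' hqM hle hmem).Square (kappaK hK hqM) (conjK hK' (sAL M q)) (zScal q)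
      (ιN (M * q) (sAL M q)) where
  rep := fun x => (exists_kappa hK hqM (x : OnePoint (ZMod q))).choose_spec
  central := fun _ => Matrix.GeneralLinearGroup.scalar_commute _ _
  norm := by
    intro γ
    rw [ιK_apply, ιK_apply, ιN_apply, ← map_mul, ← map_mul, conjK_coe, inv_mul_cancel_right]
  sq := repsT_infty_sq hqM

/-- Conjugation by the Atkin–Lehner element `w = repsT M q ∞` as an automorphism of `K'`. -/
noncomputable def cwK (hK : IsMid M K) (hK' : IsMid (M * q) K') (hqM : ¬ q ∣ M) (hle : K' ≤ K)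
    (hmem : ∀ g ∈ K, g ∈ Gamma0 (M * q) → g ∈ K') : K' ≃* K' :=
  (alSquare hK hK' hqM hle hmem).cwE

theorem cwK_spec (hK : IsMid M K) (hK' : IsMid (M * q) K') (hqM : ¬ q ∣ M) (hle : K' ≤ K)
    (hmem : ∀ g ∈ K, g ∈ Gamma0 (M * q) → g ∈ K') (γ : K') :
    repsT M q OnePoint.infty * ιK K' γ = ιK K' (cwK hK hK' hqM hle hmem γ) *
      repsT M q OnePoint.infty :=
  (alSetup hK hK' hqM hle hmem).cw_spec γ

theorem cwK_cwK (hK : IsMid M K) (hK' : IsMid (M * q) K') (hqM : ¬ q ∣ M) (hle : K' ≤ K)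
    (hmem : ∀ g ∈ K, g ∈ Gamma0 (M * q) → g ∈ K') (γ : K') :
    cwK hK hK' hqM hle hmem (cwK hK hK' hqM hle hmem γ) = conjK hK' (sAL M q) γ :=
  (alSquare hK hK' hqM hle hmem).cw_cw γ

end Data

/-! ## The operator `t₂` -/

section T2

variable {A : Type*} [AddCommGroup A]

/-- `t₂ : Hom(K', A) → Hom(K, A)`: the transfer of the coset system `repsT M q` (the normalised
representatives of `T_q` at level `M`) from `K'` to `K`; `0` if this is not a coset system. -/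
noncomputable def t2K (M q : ℕ) [NeZero q] (K K' : Subgroup SL(2, ℤ)) (ψ : Additive K' →+ A) :
    Additive K →+ A :=
  open scoped Classical in
  if h : IsCosetSystem (ιK K') (ιK K) (repsT M q) then h.transfer ψ else 0

theorem t2K_eq (hK : IsMid M K) (hqM : ¬ q ∣ M) (hle : K' ≤ K)
    (hmem : ∀ g ∈ K, g ∈ Gamma0 (M * q) → g ∈ K') (ψ : Additive K' →+ A) :
    t2K M q K K' ψ = (repsT_systemK hK hqM hle hmem).transfer ψ := by
  unfold t2K
  rw [dif_pos (repsT_systemK hK hqM hle hmem)]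

theorem t2K_add (hK : IsMid M K) (hqM : ¬ q ∣ M) (hle : K' ≤ K)
    (hmem : ∀ g ∈ K, g ∈ Gamma0 (M * q) → g ∈ K') (ψ ψ' : Additive K' →+ A) :
    t2K M q K K' (ψ + ψ') = t2K M q K K' ψ + t2K M q K K' ψ' := by
  simp only [t2K_eq hK hqM hle hmem, IsCosetSystem.transfer_add]

theorem t2K_comp {B : Type*} [AddCommGroup B] (hK : IsMid M K) (hqM : ¬ q ∣ M) (hle : K' ≤ K)
    (hmem : ∀ g ∈ K, g ∈ Gamma0 (M * q) → g ∈ K') (π : A →+ B) (ψ : Additive K' →+ A) :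
    t2K M q K K' (π.comp ψ) = π.comp (t2K M q K K' ψ) := by
  simp only [t2K_eq hK hqM hle hmem, IsCosetSystem.transfer_comp_left]

end T2

/-! ## The relations -/

section Relations

variable {A : Type*} [AddCommGroup A]

/-- `r₁ t₂ = W + U`. -/
theorem resK_t2K (hK : IsMid M K) (hK' : IsMid (M * q) K') (hqM : ¬ q ∣ M) (hle : K' ≤ K)
    (hmem : ∀ g ∈ K, g ∈ Gamma0 (M * q) → g ∈ K') (ψ : Additive K' →+ A) :
    resK hle (t2K M q K K' ψ) =
      ψ.comp (MonoidHom.toAdditive (cwK hK hK' hqM hle hmem).toMonoidHom) + UK K' q ψ := by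
  rw [t2K_eq hK hqM hle hmem, UK_eq hK' (dvd_mul_self_right M q)]
  exact (alSetup hK hK' hqM hle hmem).res_transferT ψ

/-- `t₁ = t₂ W⁻¹`. -/
theorem coresK_eq_t2K (hK : IsMid M K) (hK' : IsMid (M * q) K') (hqM : ¬ q ∣ M) (hle : K' ≤ K)
    (hmem : ∀ g ∈ K, g ∈ Gamma0 (M * q) → g ∈ K') (ψ : Additive K' →+ A) :
    coresK hle ψ =
      t2K M q K K'
        (ψ.comp (MonoidHom.toAdditive (cwK hK hK' hqM hle hmem).symm.toMonoidHom)) := by
  rw [t2K_eq hK hqM hle hmem]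
  exact (alSquare hK hK' hqM hle hmem).transferAlong_eq_T ψ

/-- (UU) for the element `sAL`. -/
theorem UK_UK_sAL (hK : IsMid M K) (hK' : IsMid (M * q) K') (hqM : ¬ q ∣ M) (hle : K' ≤ K)
    (hmem : ∀ g ∈ K, g ∈ Gamma0 (M * q) → g ∈ K') (ψ : Additive K' →+ A) :
    UK K' q (UK K' q ψ) =
      diamond hK' (sAL M q) ψ + UK K' q (resK hle (t2K M q K K' ψ)) -
        resK hle (coresK hle (diamond hK' (sAL M q) ψ)) := by
  rw [t2K_eq hK hqM hle hmem, UK_eq hK' (dvd_mul_self_right M q),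
    UK_eq hK' (dvd_mul_self_right M q), UK_eq hK' (dvd_mul_self_right M q)]
  exact (alSquare hK hK' hqM hle hmem).UU ψ

omit [Fact q.Prime] in
/-- At the level `K' = K ∩ Γ₀(M q)` the diamond operator of `g ∈ Γ₀(M q)` only depends on
`d(g) mod M`. -/
theorem diamond_congr_mod (hK : IsMid M K) (hK' : IsMid (M * q) K')
    (hmem : ∀ g ∈ K, g ∈ Gamma0 (M * q) → g ∈ K') {g g' : Gamma0 (M * q)}
    (h : ((((g : SL(2, ℤ)) 1 1 : ℤ)) : ZMod M) = ((((g' : SL(2, ℤ)) 1 1 : ℤ)) : ZMod M))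
    (ψ : Additive K' →+ A) : diamond hK' g ψ = diamond hK' g' ψ := by
  apply diamond_congr_of_mem
  have h1 : dUnit M (incl M q (g⁻¹ * g')) = 1 := by
    have h2 : dUnit M (incl M q g) = dUnit M (incl M q g') := by
      apply Units.ext
      rw [coe_dUnit, coe_dUnit]
      exact h
    rw [map_mul, map_mul, map_inv, map_inv, h2, inv_mul_cancel]
  exact hmem _ (hK.mem_of_dUnit_eq_one h1) (g⁻¹ * g').2

omit [Fact q.Prime] in
/-- `t₁` commutes with the diamond operators. -/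
theorem coresK_diamond (hK : IsMid M K) (hK' : IsMid (M * q) K') (hle : K' ≤ K)
    (s : Gamma0 (M * q)) (ψ : Additive K' →+ A) :
    coresK hle (diamond hK' s ψ) = diamond hK (incl M q s) (coresK hle ψ) :=
  Fermat.Agent.S41.H924.transferAlong_comp_aut (Subgroup.inclusion hle) (conjK hK' s)
    (conjK hK (incl M q s)) (fun _ => Subtype.ext rfl) ψ

/-- **(UU) at `Γ_H`-levels**: `U² = ⟨q⟩ + U r₁ t₂ - r₁ t₁ ⟨q⟩`, where `⟨q⟩ = diamond hK' s`
for any `s ∈ Γ₀(M q)` with `d(s) ≡ q mod M`. -/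
theorem UK_UK (hK : IsMid M K) (hK' : IsMid (M * q) K') (hqM : ¬ q ∣ M) (hle : K' ≤ K)
    (hmem : ∀ g ∈ K, g ∈ Gamma0 (M * q) → g ∈ K') (s : Gamma0 (M * q))
    (hs : ((((s : SL(2, ℤ)) 1 1 : ℤ)) : ZMod M) = (q : ZMod M)) (ψ : Additive K' →+ A) :
    UK K' q (UK K' q ψ) =
      diamond hK' s ψ + UK K' q (resK hle (t2K M q K K' ψ)) -
        resK hle (coresK hle (diamond hK' s ψ)) := by
  rw [diamond_congr_mod hK hK' hmem (hs.trans (sAL_d hqM).symm) ψ]
  exact UK_UK_sAL hK hK' hqM hle hmem ψ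

/-- **(UU) at `Γ_H`-levels**, second form: `U² = ⟨q⟩ + U r₁ t₂ - r₁ ⟨q⟩ t₁`. -/
theorem UK_UK' (hK : IsMid M K) (hK' : IsMid (M * q) K') (hqM : ¬ q ∣ M) (hle : K' ≤ K)
    (hmem : ∀ g ∈ K, g ∈ Gamma0 (M * q) → g ∈ K') (s : Gamma0 (M * q))
    (hs : ((((s : SL(2, ℤ)) 1 1 : ℤ)) : ZMod M) = (q : ZMod M)) (ψ : Additive K' →+ A) :
    UK K' q (UK K' q ψ) =
      diamond hK' s ψ + UK K' q (resK hle (t2K M q K K' ψ)) -
        resK hle (diamond hK (incl M q s) (coresK hle ψ)) := by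
  rw [← coresK_diamond hK hK' hle]
  exact UK_UK hK hK' hqM hle hmem s hs ψ

/-- **`U_q² = ⟨q⟩` on the `q`-new classes** (`t₁ ψ = 0`, `t₂ ψ = 0`) at `Γ_H`-levels. -/
theorem UK_UK_of_new (hK : IsMid M K) (hK' : IsMid (M * q) K') (hqM : ¬ q ∣ M) (hle : K' ≤ K)
    (hmem : ∀ g ∈ K, g ∈ Gamma0 (M * q) → g ∈ K') (s : Gamma0 (M * q))
    (hs : ((((s : SL(2, ℤ)) 1 1 : ℤ)) : ZMod M) = (q : ZMod M)) (ψ : Additive K' →+ A)
    (h₁ : coresK hle ψ = 0) (h₂ : t2K M q K K' ψ = 0) :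
    UK K' q (UK K' q ψ) = diamond hK' s ψ := by
  have h0 : UK K' q (0 : Additive K' →+ A) = 0 := by
    have h := UK_add hK' (dvd_mul_self_right M q) (0 : Additive K' →+ A) 0
    rw [add_zero] at h
    exact left_eq_add.mp h
  rw [UK_UK' hK hK' hqM hle hmem s hs ψ, h₁, h₂]
  have e1 : resK hle (0 : Additive K →+ A) = 0 := rfl
  have e2 : diamond hK (incl M q s) (0 : Additive K →+ A) = 0 := rfl
  rw [e1, e2, e1, h0, add_zero, sub_zero]

end Relations

end Fermat.Agent.S59.TW.H666
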