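import Mathlib
import Fermat.Agent.S59.TW.H653.Cross.Conj
import Fermat.Agent.S59.TW.H666.UUK

/-!
# S59 / cell TW (shared with HARD, leaf (ST)): `t2K` is the transfer along `conjDelta`
(helper666)

Bridge between `UUK.lean` and the block CROSS of helper653 (`S59/TW/H653/Cross`):

* `transferAlong_eq_transfer_of_conj` (abstract): a coset system `τ` from `Γs` to `Γb` with
  `δ * τ x = z * ιb (s x)` (`z` central, `s x ∈ Γb`) and `δ * ιs k = ιb (c k) * δ` has transfer
  `transferAlong c`;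
* `t2K_eq_transferAlong` : `t2K M q K K' ψ = transferAlong c ψ` for every `c : K' →* K` which
  is the restriction of `S41.Spec.conjDelta M q` (hypothesis `hcoe` of `H653.Cross`);
* `UK_UK_conj`, `UK_UK_of_new_conj` : the relation (UU) of `UUK.lean` with `t₂ = transferAlong c`;
* `UK_UK_of_new_diamondU` : the same with `diamondU hK' u`, `u ∈ (ℤ/Mq)ˣ`, `u ≡ q mod M`.
-/

set_option autoImplicit false

namespace Fermat.Agent.S59.TW.H666

open CongruenceSubgroup Matrix.SpecialLinearGroup ModularCurve.Period ModularForm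
open Fermat.Agent.S29.H642 Fermat.Agent.S41.H761 Fermat.Agent.S41.Spec
open Fermat.Agent.S59.TW.H653
open P2MW.S_ModularForm_heckeT_slash_eq_self_of_mem_Gamma0.ModularForm.HeckeSlashInvariance
open scoped MatrixGroups

/-! ## Abstract part -/

section Abs

variable {𝒢 Γs Γb I : Type*} [Group 𝒢] [Group Γs] [Group Γb] [Fintype I] [Nonempty I]
variable {ιs : Γs →* 𝒢} {ιb : Γb →* 𝒢} {τ : I → 𝒢} {A : Type*} [AddCommGroup A]

/-- A coset system `τ` from `Γs` to `Γb` such that `δ * τ x = z * ιb (s x)` with `z` central and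
`s x ∈ Γb`, where `δ` realises `c : Γs →* Γb`, has transfer `transferAlong c`. -/
theorem transferAlong_eq_transfer_of_conj (sys : IsCosetSystem ιs ιb τ)
    (hιb : Function.Injective ιb) (c : Γs →* Γb) (δ z : 𝒢)
    (hc : ∀ k, δ * ιs k = ιb (c k) * δ) (hz : ∀ g, z * ιb g = ιb g * z) (s : I → Γb)
    (hs : ∀ x, δ * τ x = z * ιb (s x)) (ψ : Additive Γs →+ A) :
    transferAlong c ψ = sys.transfer ψ := by
  have hcinj : Function.Injective c := by
    intro k k' h
    apply sys.inj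
    have h1 := hc k
    rw [h, ← hc k'] at h1
    exact mul_left_cancel h1
  have hspec : ∀ (x : I) (g : Γb), s x * g = c (sys.coc x g) * s (sys.act x g) := by
    intro x g
    apply hιb
    apply mul_left_cancel (a := z)
    rw [map_mul, ← mul_assoc, ← hs, mul_assoc, sys.spec x g, ← mul_assoc, hc, mul_assoc, hs,
      map_mul, ← mul_assoc, ← mul_assoc, hz]
  have hinj : ∀ x y : I, s x * (s y)⁻¹ ∈ c.range → x = y := by
    rintro x y ⟨k, hk⟩
    have h1 : s x = c k * s y := by rw [hk, inv_mul_cancel_right]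
    apply sys.eq_of_mul x y k
    apply mul_left_cancel (a := δ)
    rw [hs, h1, map_mul, ← mul_assoc, hz, mul_assoc, ← hs, ← mul_assoc, ← hc, mul_assoc]
  have hsurj : ∀ g : Γb, ∃ x : I, g * (s x)⁻¹ ∈ c.range := by
    intro g
    obtain ⟨x₀⟩ := ‹Nonempty I›
    refine ⟨sys.act x₀ ((s x₀)⁻¹ * g), sys.coc x₀ ((s x₀)⁻¹ * g), ?_⟩
    have h := hspec x₀ ((s x₀)⁻¹ * g)
    rw [mul_inv_cancel_left] at h
    exact eq_mul_inv_of_mul_eq h.symm
  refine AddMonoidHom.ext fun g' => ?_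
  obtain ⟨g, rfl⟩ : ∃ g : Γb, Additive.ofMul g = g' := ⟨Additive.toMul g', rfl⟩
  rw [Fermat.Agent.S41.H863.transferAlong_eq_sum_reps c hcinj s hinj hsurj ψ g
    (fun x => sys.act x g) (fun x => sys.coc x g) (fun x => hspec x g),
    IsCosetSystem.transfer_apply]

end Abs

/-! ## The concrete representatives -/

variable {M q : ℕ} [Fact q.Prime] {K K' : Subgroup SL(2, ℤ)}

/-- `δ * repsT M q x = q * s_x` with `s_x ∈ Γ₁(M) ≤ K`. -/
theorem exists_sRep (hK : IsMid M K) (hqM : ¬ q ∣ M) (x : OnePoint (ZMod q)) :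
    ∃ k : K, heckeDiagMatrix q * repsT M q x = zScal q * ιK K k := by
  have hq0 : q ≠ 0 := (Fact.out : q.Prime).ne_zero
  have hs := bezout_sigma (M := M) (q := q) hqM
  have hsR : (Int.gcdA q M : ℝ) * (q : ℝ) + (Int.gcdB q M : ℝ) * (M : ℝ) = 1 := by
    exact_mod_cast hs
  induction x using OnePoint.rec with
  | infty =>
    -- `s_∞ = [[A q, -B], [M, 1]]`
    have hdet : (Int.gcdA q M * q) * (1 : ℤ) - (-Int.gcdB q M) * (M : ℤ) = 1 := by
      linear_combination hs
    obtain ⟨g00, g01, g10, g11⟩ := mkGamma0_apply M (Int.gcdA q M * q) (-Int.gcdB q M) (M : ℤ)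
      1 hdet (dvd_refl _)
    set g : Gamma0 M := mkGamma0 M (Int.gcdA q M * q) (-Int.gcdB q M) (M : ℤ) 1 hdet
      (dvd_refl _) with hg
    have hd : dUnit M g = 1 := by
      apply Units.ext
      rw [coe_dUnit, Units.val_one, g11]
      push_cast
      rfl
    refine ⟨⟨(g : SL(2, ℤ)), hK.mem_of_dUnit_eq_one hd⟩, ?_⟩
    have hw := coe_repsT_infty (M := M) (q := q) hqM
    apply gl_ext <;>
      simp only [coe_mul_apply, ιK_apply, coe_mapGL_apply, coe_zScal, hw,
        val_heckeDiagMatrix hq0, Matrix.of_apply, Matrix.cons_val', Matrix.cons_val_zero,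
        Matrix.cons_val_one, Matrix.cons_val_fin_one, g00, g01, g10, g11] <;>
      push_cast <;> simp
  | coe j =>
    -- `s_j = [[1, j], [0, 1]]`
    have hdet : (1 : ℤ) * 1 - (j.val : ℤ) * 0 = 1 := by ring
    obtain ⟨g00, g01, g10, g11⟩ := mkGamma0_apply M 1 (j.val : ℤ) 0 1 hdet (dvd_zero _)
    set g : Gamma0 M := mkGamma0 M 1 (j.val : ℤ) 0 1 hdet (dvd_zero _) with hg
    have hd : dUnit M g = 1 := by
      apply Units.ext
      rw [coe_dUnit, Units.val_one, g11]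
      push_cast
      rfl
    refine ⟨⟨(g : SL(2, ℤ)), hK.mem_of_dUnit_eq_one hd⟩, ?_⟩
    have hu := coe_repsT_coe (M := M) j
    apply gl_ext <;>
      simp only [coe_mul_apply, ιK_apply, coe_mapGL_apply, coe_zScal, hu,
        val_heckeDiagMatrix hq0, Matrix.of_apply, Matrix.cons_val', Matrix.cons_val_zero,
        Matrix.cons_val_one, Matrix.cons_val_fin_one, g00, g01, g10, g11] <;>
      push_cast <;> simp

/-! ## The bridge -/

section Bridge

variable {A : Type*} [AddCommGroup A]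

/-- **`t2K` is the transfer along the restriction of `conjDelta`.** -/
theorem t2K_eq_transferAlong (hK : IsMid M K) (hK' : IsMid (M * q) K') (hqM : ¬ q ∣ M)
    (hle : K' ≤ K) (hmem : ∀ g ∈ K, g ∈ Gamma0 (M * q) → g ∈ K') (c : K' →* K)
    (hcoe : ∀ k : K', ((c k : K) : SL(2, ℤ)) =
      ((conjDelta M q (Subgroup.inclusion hK'.le k) : Gamma0 M) : SL(2, ℤ)))
    (ψ : Additive K' →+ A) : t2K M q K K' ψ = transferAlong c ψ := by
  rw [t2K_eq hK hqM hle hmem]
  symm
  exact transferAlong_eq_transfer_of_conj (repsT_systemK hK hqM hle hmem) (ιK_injective K) c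
    (heckeDiagMatrix q) (zScal q)
    (Cross.hc_of_coe hK' (Fact.out : q.Prime).ne_zero c hcoe)
    (fun _ => Matrix.GeneralLinearGroup.scalar_commute _ _)
    (fun x => (exists_sRep hK hqM x).choose) (fun x => (exists_sRep hK hqM x).choose_spec) ψ

/-- **(UU) at `Γ_H`-levels** with `t₂ = transferAlong c`, `c` the restriction of
`conjDelta`. -/
theorem UK_UK_conj (hK : IsMid M K) (hK' : IsMid (M * q) K') (hqM : ¬ q ∣ M) (hle : K' ≤ K)
    (hmem : ∀ g ∈ K, g ∈ Gamma0 (M * q) → g ∈ K') (c : K' →* K)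
    (hcoe : ∀ k : K', ((c k : K) : SL(2, ℤ)) =
      ((conjDelta M q (Subgroup.inclusion hK'.le k) : Gamma0 M) : SL(2, ℤ)))
    (s : Gamma0 (M * q)) (hs : ((((s : SL(2, ℤ)) 1 1 : ℤ)) : ZMod M) = (q : ZMod M))
    (ψ : Additive K' →+ A) :
    UK K' q (UK K' q ψ) =
      diamond hK' s ψ + UK K' q (resK hle (transferAlong c ψ)) -
        resK hle (diamond hK (incl M q s) (coresK hle ψ)) := by
  rw [← t2K_eq_transferAlong hK hK' hqM hle hmem c hcoe]
  exact UK_UK' hK hK' hqM hle hmem s hs ψ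

/-- **`U_q² = ⟨q⟩` on the `q`-new classes** at `Γ_H`-levels, with `t₂ = transferAlong c`. -/
theorem UK_UK_of_new_conj (hK : IsMid M K) (hK' : IsMid (M * q) K') (hqM : ¬ q ∣ M)
    (hle : K' ≤ K) (hmem : ∀ g ∈ K, g ∈ Gamma0 (M * q) → g ∈ K') (c : K' →* K)
    (hcoe : ∀ k : K', ((c k : K) : SL(2, ℤ)) =
      ((conjDelta M q (Subgroup.inclusion hK'.le k) : Gamma0 M) : SL(2, ℤ)))
    (s : Gamma0 (M * q)) (hs : ((((s : SL(2, ℤ)) 1 1 : ℤ)) : ZMod M) = (q : ZMod M))
    (ψ : Additive K' →+ A) (h₁ : coresK hle ψ = 0) (h₂ : transferAlong c ψ = 0) :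
    UK K' q (UK K' q ψ) = diamond hK' s ψ := by
  rw [← t2K_eq_transferAlong hK hK' hqM hle hmem c hcoe] at h₂
  exact UK_UK_of_new hK hK' hqM hle hmem s hs ψ h₁ h₂

/-- The same with the diamond operator `diamondU hK' u` of a unit `u ∈ (ℤ/Mq)ˣ` with
`u ≡ q mod M`. -/
theorem UK_UK_of_new_diamondU [NeZero (M * q)] (hK : IsMid M K) (hK' : IsMid (M * q) K')
    (hqM : ¬ q ∣ M) (hle : K' ≤ K) (hmem : ∀ g ∈ K, g ∈ Gamma0 (M * q) → g ∈ K')
    (c : K' →* K)
    (hcoe : ∀ k : K', ((c k : K) : SL(2, ℤ)) =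
      ((conjDelta M q (Subgroup.inclusion hK'.le k) : Gamma0 M) : SL(2, ℤ)))
    (u : (ZMod (M * q))ˣ)
    (hu : ZMod.castHom (Dvd.intro q rfl : M ∣ M * q) (ZMod M) (u : ZMod (M * q)) = (q : ZMod M))
    (ψ : Additive K' →+ A) (h₁ : coresK hle ψ = 0) (h₂ : transferAlong c ψ = 0) :
    UK K' q (UK K' q ψ) = diamondU hK' u ψ := by
  obtain ⟨s, hsu⟩ := dUnit_surjective (M := M * q) u
  rw [diamondU_eq hK' hsu]
  refine UK_UK_of_new_conj hK hK' hqM hle hmem c hcoe s ?_ ψ h₁ h₂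
  have h1 : ((dUnit (M * q) s : (ZMod (M * q))ˣ) : ZMod (M * q)) =
      ((((s : SL(2, ℤ)) 1 1 : ℤ)) : ZMod (M * q)) := coe_dUnit s
  rw [hsu] at h1
  rw [h1] at hu
  rw [← hu]
  simp

end Bridge

end Fermat.Agent.S59.TW.H666
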